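import Fermat.Agent.S29.H872.Glue

/-!
# S29 from the Eichler–Shimura module and weak Chebotarev

`result_of_module`: the frozen conclusion of S29 follows from

* `WeakCheb` (weak qualitative Chebotarev), and
* `ModHyp g p ψ` for algebraically closed fields `F` of characteristic `p` and ring
  homomorphisms `ψ : ℤ̄ → F`: a nonzero finite dimensional `F[G_ℚ]`-module of finite level,
  unramified outside `N p`, on which every Frobenius element at `ℓ ∤ N p` satisfies
  `σ² - ψ(a_ℓ) σ + ℓ = 0`.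
-/

set_option autoImplicit false

namespace Fermat.Agent.S29.H872

open Polynomial

/-- A monic polynomial of positive degree over `ℤ̄` has a root in `ℤ̄`. -/
theorem exists_root_integralClosure (q : (integralClosure ℤ ℂ)[X]) (hq : q.Monic)
    (hdeg : q.natDegree ≠ 0) : ∃ w : integralClosure ℤ ℂ, q.eval w = 0 := by
  have hmap : (q.map (algebraMap (integralClosure ℤ ℂ) ℂ)).degree ≠ 0 := by
    rw [hq.degree_map, degree_eq_natDegree hq.ne_zero]
    exact_mod_cast hdeg
  obtain ⟨z, hz⟩ := IsAlgClosed.exists_root _ hmap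
  have hz' : IsIntegral (integralClosure ℤ ℂ) z := ⟨q, hq, by
    rw [← eval_map]; exact hz⟩
  have hz'' : IsIntegral ℤ z := isIntegral_trans z hz'
  refine ⟨⟨z, hz''⟩, ?_⟩
  apply Subtype.val_injective
  have := eval_map_apply (p := q) (algebraMap (integralClosure ℤ ℂ) ℂ) (⟨z, hz''⟩ : integralClosure ℤ ℂ)
  rw [IsRoot.def] at hz
  rw [show ((q.eval (⟨z, hz''⟩ : integralClosure ℤ ℂ) : integralClosure ℤ ℂ) : ℂ)
    = algebraMap (integralClosure ℤ ℂ) ℂ (q.eval ⟨z, hz''⟩) from rfl, ← this]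
  exact hz

section field

variable {p : ℕ} {k : Type} [Field k] [CharP k p]

/-- The kernel of a ring homomorphism from `ℤ̄` to a field of characteristic `p` is maximal. -/
theorem ker_isMaximal (hp : p.Prime) (φ : integralClosure ℤ ℂ →+* k) :
    (RingHom.ker φ).IsMaximal := by
  have : (RingHom.ker φ).IsPrime := RingHom.ker_isPrime φ
  apply Ideal.isMaximal_of_isIntegral_of_isMaximal_comap (R := ℤ)
  have hprime : ((RingHom.ker φ).comap (algebraMap ℤ (integralClosure ℤ ℂ))).IsPrime :=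
    Ideal.comap_isPrime _ _
  refine hprime.isMaximal ?_
  intro h
  have hmem : (p : ℤ) ∈ (RingHom.ker φ).comap (algebraMap ℤ (integralClosure ℤ ℂ)) := by
    rw [Ideal.mem_comap, RingHom.mem_ker]
    simp
  rw [h, Ideal.mem_bot] at hmem
  exact hp.ne_zero (by exact_mod_cast hmem)

/-- The image of `φ : ℤ̄ → k`, as a subfield of `k`. -/
def imageField (hp : p.Prime) (φ : integralClosure ℤ ℂ →+* k) : Subfield k :=
  { φ.range with
    inv_mem' := by
      rintro _ ⟨a, rfl⟩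
      by_cases h0 : φ a = 0
      · rw [h0, inv_zero]; exact ⟨0, map_zero φ⟩
      · obtain ⟨y, i, hi, hyi⟩ := (ker_isMaximal hp φ).exists_inv (x := a)
          (by rwa [RingHom.mem_ker])
        refine ⟨y, ?_⟩
        have h1 := congrArg φ hyi
        rw [map_add, map_mul, (RingHom.mem_ker).1 hi, add_zero, map_one] at h1
        exact (eq_inv_of_mul_eq_one_left h1) }

theorem mem_imageField (hp : p.Prime) (φ : integralClosure ℤ ℂ →+* k) (a : integralClosure ℤ ℂ) :
    φ a ∈ imageField hp φ := ⟨a, rfl⟩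

/-- `φ` with codomain restricted to its image. -/
def toImageField (hp : p.Prime) (φ : integralClosure ℤ ℂ →+* k) :
    integralClosure ℤ ℂ →+* imageField hp φ :=
  φ.codRestrict (imageField hp φ).toSubring (mem_imageField hp φ)

theorem toImageField_surjective (hp : p.Prime) (φ : integralClosure ℤ ℂ →+* k) :
    Function.Surjective (toImageField hp φ) := by
  rintro ⟨_, a, rfl⟩
  exact ⟨a, rfl⟩

theorem coe_toImageField (hp : p.Prime) (φ : integralClosure ℤ ℂ →+* k)
    (a : integralClosure ℤ ℂ) : ((toImageField hp φ a : imageField hp φ) : k) = φ a := rfl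

/-- The image of `φ` is algebraically closed. -/
theorem isAlgClosed_imageField (hp : p.Prime) (φ : integralClosure ℤ ℂ →+* k) :
    IsAlgClosed (imageField hp φ) := by
  apply IsAlgClosed.of_exists_root
  intro f hf hirr
  obtain ⟨q', hq'⟩ := Polynomial.map_surjective _ (toImageField_surjective hp φ) f
  obtain ⟨q, hqf, hqdeg, hqmonic⟩ :=
    lifts_and_natDegree_eq_and_monic ((mem_lifts _).2 ⟨q', hq'⟩) hf
  have hdeg : q.natDegree ≠ 0 := by
    rw [hqdeg]
    exact (Irreducible.natDegree_pos hirr).ne'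
  obtain ⟨w, hw⟩ := exists_root_integralClosure q hqmonic hdeg
  refine ⟨toImageField hp φ w, ?_⟩
  rw [← hqf, eval_map_apply, hw, map_zero]

end field

/-- **MOD** (hypothesis shape): the Eichler–Shimura module of the eigenform `g` over `F`. -/
def ModHyp {N : ℕ} (g : CuspForm (CongruenceSubgroup.Gamma0 N) 2) (p : ℕ) {F : Type} [Field F]
    (ψ : integralClosure ℤ ℂ →+* F) : Prop :=
  ∃ (M : Type) (_ : AddCommGroup M) (_ : Module F M) (_ : FiniteDimensional F M)
    (_ : Nontrivial M) (r : (AlgebraicClosure ℚ ≃ₐ[ℚ] AlgebraicClosure ℚ) →* Module.End F M),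
    GaloisFactorsThroughFiniteLevel r ∧
    (∀ ℓ : ℕ, ℓ.Prime → ¬ ℓ ∣ N * p → ∀ A : ValuationSubring (AlgebraicClosure ℚ),
      A.LiesOverPrime ℓ → ∀ σ ∈ A.inertiaSubgroupIn ℚ, r σ = 1) ∧
    (∀ ℓ : ℕ, ℓ.Prime → ¬ ℓ ∣ N * p →
      ∃ a : integralClosure ℤ ℂ, (a : ℂ) = ModularFormClass.qCoeff g ℓ ∧
        ∀ A : ValuationSubring (AlgebraicClosure ℚ), A.LiesOverPrime ℓ →
          ∀ σ : AlgebraicClosure ℚ ≃ₐ[ℚ] AlgebraicClosure ℚ, A.IsFrobeniusAt σ ℓ →
            r σ * r σ = ψ a • r σ - (ℓ : F) • 1)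

/-- The trivial two-dimensional residual representation. -/
noncomputable def trivialRep (k : Type) [Field k] : ResidualGaloisRep k where
  V := k × k
  finrank_eq := finrank_prod_self
  ρ := 1
  factorsThroughFiniteLevel := ⟨⊥, inferInstance, fun _ _ => rfl⟩

/-- **S29 from MOD over an algebraically closed field and weak Chebotarev**, general form:
`F` algebraically closed, `ψ : ℤ̄ → F`, `ι : F → k` with `ι ∘ ψ = φ`. -/
theorem result_of_module_field
    {N : ℕ} {g : CuspForm (CongruenceSubgroup.Gamma0 N) 2}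
    {p : ℕ} (hp : p.Prime) {k : Type} [Field k] [CharP k p]
    (φ : integralClosure ℤ ℂ →+* k) (hCheb : WeakCheb)
    {F : Type} [Field F] [IsAlgClosed F] (ψ : integralClosure ℤ ℂ →+* F) (ι : F →+* k)
    (hι : ∀ a, ι (ψ a) = φ a) (hMod : N ≠ 0 → ModHyp g p ψ) :
    ∃ ρ : ResidualGaloisRep k, ρ.IsAttachedTo g φ ∧
      ∀ ℓ : ℕ, ℓ.Prime → ¬ ℓ ∣ N * p → ρ.IsUnramifiedAt ℓ := by
  classical
  by_cases hN : N = 0
  · subst hN
    refine ⟨trivialRep k, fun ℓ _ hℓN => absurd (dvd_zero ℓ) hℓN, fun ℓ _ hℓ => ?_⟩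
    exact absurd (by rw [zero_mul]; exact dvd_zero ℓ) hℓ
  have : Fact p.Prime := ⟨hp⟩
  have : CharP F p := ι.charP ι.injective p
  obtain ⟨M, iA, iM, iFD, iNT, r, hfin, hunr, hES⟩ := hMod hN
  have hNp : N * p ≠ 0 := Nat.mul_ne_zero hN hp.ne_zero
  let S : Finset ℕ := (N * p).primeFactors
  have hS : ∀ ℓ : ℕ, ℓ.Prime → (ℓ ∉ S ↔ ¬ ℓ ∣ N * p) := fun ℓ hℓ => by
    simp only [S, Nat.mem_primeFactors, not_and, not_not]
    constructor
    · intro h hd
      exact hNp (h hℓ hd)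
    · intro h _ hd
      exact absurd hd h
  have hpS : p ∈ S := by
    by_contra h
    exact ((hS p hp).1 h) (dvd_mul_left p N)
  let c : ℕ → F := fun ℓ =>
    if h : ∃ a : integralClosure ℤ ℂ, (a : ℂ) = ModularFormClass.qCoeff g ℓ then ψ h.choose else 0
  have hc : ∀ (ℓ : ℕ) (a : integralClosure ℤ ℂ), (a : ℂ) = ModularFormClass.qCoeff g ℓ →
      c ℓ = ψ a := by
    intro ℓ a ha
    have h : ∃ a : integralClosure ℤ ℂ, (a : ℂ) = ModularFormClass.qCoeff g ℓ := ⟨a, ha⟩
    simp only [c, dif_pos h]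
    congr 1
    exact Subtype.ext (h.choose_spec.trans ha.symm)
  obtain ⟨ρ₀, hρunr, hρchar⟩ := exists_residualGaloisRep_of_module p r hfin S hpS c
    (fun ℓ hℓ hℓS => hunr ℓ hℓ ((hS ℓ hℓ).1 hℓS))
    (fun ℓ hℓ hℓS A hA σ hσ => by
      obtain ⟨a, ha, hrel⟩ := hES ℓ hℓ ((hS ℓ hℓ).1 hℓS)
      rw [hc ℓ a ha]
      exact hrel A hA σ hσ) hCheb
  refine ⟨ρ₀.baseChangeAlong ι, ?_, ?_⟩
  · intro ℓ hℓ hℓN hℓk A hA σ hσ
    have hℓp : ¬ ℓ ∣ N * p := by
      intro hd
      rcases (Nat.Prime.dvd_mul hℓ).1 hd with h | h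
      · exact hℓN h
      · have : ℓ = p := (Nat.prime_dvd_prime_iff_eq hℓ hp).1 h
        subst this
        exact hℓk (CharP.cast_eq_zero k ℓ)
    obtain ⟨a, ha, -⟩ := hES ℓ hℓ hℓp
    refine ⟨a, ha, ?_⟩
    have h := hρchar ℓ hℓ ((hS ℓ hℓ).2 hℓp) A hA σ hσ
    rw [hc ℓ a ha] at h
    let _ : Algebra F k := ι.toAlgebra
    change LinearMap.charpoly ((ρ₀.ρ σ).baseChange k) = _
    rw [LinearMap.charpoly_baseChange, h]
    simp only [Polynomial.map_add, Polynomial.map_sub, Polynomial.map_mul, Polynomial.map_pow,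
      Polynomial.map_X, Polynomial.map_C]
    rw [show (algebraMap F k) (ψ a) = φ a from hι a, map_natCast (algebraMap F k)]
  · intro ℓ hℓ hℓp A hA σ hσ
    have h := hρunr ℓ hℓ ((hS ℓ hℓ).2 hℓp) A hA σ hσ
    let _ : Algebra F k := ι.toAlgebra
    change (ρ₀.ρ σ).baseChange k = 1
    rw [h, LinearMap.baseChange_one]

/-- **S29 from MOD and weak Chebotarev.** -/
theorem result_of_module
    {N : ℕ} {g : CuspForm (CongruenceSubgroup.Gamma0 N) 2}
    {p : ℕ} (hp : p.Prime) {k : Type} [Field k] [CharP k p]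
    (φ : integralClosure ℤ ℂ →+* k) (hCheb : WeakCheb)
    (hMod : N ≠ 0 → ∀ (F : Type) [Field F] [IsAlgClosed F] [CharP F p]
      (ψ : integralClosure ℤ ℂ →+* F), ModHyp g p ψ) :
    ∃ ρ : ResidualGaloisRep k, ρ.IsAttachedTo g φ ∧
      ∀ ℓ : ℕ, ℓ.Prime → ¬ ℓ ∣ N * p → ρ.IsUnramifiedAt ℓ := by
  have := isAlgClosed_imageField hp φ
  exact result_of_module_field hp φ hCheb (toImageField hp φ) (imageField hp φ).subtype
    (fun a => coe_toImageField hp φ a) (fun hN => hMod hN _ _)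

end Fermat.Agent.S29.H872
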