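import Fermat.Agent.S29.H872.Quadratic

/-!
# Simple invariant subspaces and restricted representations
-/

set_option autoImplicit false

namespace Fermat.Agent.S29.H872

open Module

variable {K : Type*} [Field K] {M : Type*} [AddCommGroup M] [Module K M]
variable {G : Type*} [Group G]

/-- `W` is stable under the representation `r`. -/
def Stable (r : G →* Module.End K M) (W : Submodule K M) : Prop :=
  ∀ g, W ≤ W.comap (r g)

theorem stable_top (r : G →* Module.End K M) : Stable r ⊤ := fun _ _ _ => trivial

/-- A nonzero finite dimensional representation contains a minimal nonzero stable subspace. -/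
theorem exists_minimal_stable [FiniteDimensional K M] [Nontrivial M] (r : G →* Module.End K M) :
    ∃ U : Submodule K M, U ≠ ⊥ ∧ Stable r U ∧
      ∀ W : Submodule K M, W ≤ U → Stable r W → W = ⊥ ∨ W = U := by
  classical
  let P : ℕ → Prop := fun n => ∃ U : Submodule K M, U ≠ ⊥ ∧ Stable r U ∧ finrank K U = n
  have hex : ∃ n, P n := ⟨finrank K (⊤ : Submodule K M), ⊤, top_ne_bot, stable_top r, rfl⟩
  obtain ⟨U, hU0, hUs, hUn⟩ := Nat.find_spec hex
  refine ⟨U, hU0, hUs, fun W hWU hWs => ?_⟩
  by_cases hW0 : W = ⊥
  · exact Or.inl hW0
  · right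
    have hmin : Nat.find hex ≤ finrank K W := Nat.find_min' hex ⟨W, hW0, hWs, rfl⟩
    rw [← hUn] at hmin
    exact Submodule.eq_of_le_of_finrank_le hWU hmin

/-- The restriction of a representation to a stable subspace. -/
def restrictRep (r : G →* Module.End K M) (U : Submodule K M) (hU : Stable r U) :
    G →* Module.End K U where
  toFun g := (r g).restrict (fun _ hx => hU g hx)
  map_one' := by
    ext x
    simp
  map_mul' g h := by
    ext x
    simp

@[simp]
theorem restrictRep_apply_coe (r : G →* Module.End K M) (U : Submodule K M) (hU : Stable r U)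
    (g : G) (x : U) : ((restrictRep r U hU g x : U) : M) = r g (x : M) := rfl

theorem restrictRep_eq_one (r : G →* Module.End K M) (U : Submodule K M) (hU : Stable r U)
    {g : G} (hg : r g = 1) : restrictRep r U hU g = 1 := by
  ext x
  simp [hg]

/-- A relation `r g * r g = α • r g - δ • 1` restricts to stable subspaces. -/
theorem restrictRep_rel (r : G →* Module.End K M) (U : Submodule K M) (hU : Stable r U)
    {g : G} {α δ : K} (h : r g * r g = α • r g - δ • 1) :
    restrictRep r U hU g * restrictRep r U hU g = α • restrictRep r U hU g - δ • 1 := by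
  ext x
  have := congrArg (fun f : Module.End K M => f (x : M)) h
  simpa using this

theorem QuadRel.restrict {r : G →* Module.End K M} {a d : G → K} (hq : QuadRel r a d)
    (U : Submodule K M) (hU : Stable r U) : QuadRel (restrictRep r U hU) a d :=
  ⟨hq.d_mul, fun g => restrictRep_rel r U hU (hq.rel g)⟩

/-- The restriction to a minimal stable subspace is irreducible. -/
theorem restrictRep_irreducible (r : G →* Module.End K M) (U : Submodule K M) (hU : Stable r U)
    (hmin : ∀ W : Submodule K M, W ≤ U → Stable r W → W = ⊥ ∨ W = U)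
    (W : Submodule K U) (hW : ∀ g, W ≤ W.comap (restrictRep r U hU g)) : W = ⊥ ∨ W = ⊤ := by
  have hle : W.map U.subtype ≤ U := by
    rintro _ ⟨x, -, rfl⟩
    exact x.2
  have hst : Stable r (W.map U.subtype) := by
    rintro g _ ⟨x, hx, rfl⟩
    exact ⟨restrictRep r U hU g x, hW g hx, rfl⟩
  rcases hmin _ hle hst with h | h
  · left
    rw [eq_bot_iff]
    intro x hx
    have hx' : (x : M) ∈ W.map U.subtype := ⟨x, hx, rfl⟩
    rw [h, Submodule.mem_bot] at hx'
    rw [Submodule.mem_bot]
    exact Subtype.ext hx'
  · right
    rw [eq_top_iff]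
    intro x _
    have hx : (x : M) ∈ W.map U.subtype := by rw [h]; exact x.2
    obtain ⟨y, hy, hyx⟩ := hx
    have : y = x := Subtype.ext hyx
    exact this ▸ hy

end Fermat.Agent.S29.H872
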