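import Fermat.Agent.S29.H872.Charpoly
import Fermat.Agent.S29.H872.Simple

/-!
# Abstract assembly: from a nonzero module with quadratic relations to a two-dimensional
representation with prescribed characteristic polynomials
-/

set_option autoImplicit false

namespace Fermat.Agent.S29.H872

open Module Polynomial

section diag

variable {F : Type*} [Field F] {G : Type*} [Group G]

/-- The diagonal representation `χ ⊕ θ` on `F × F`. -/
noncomputable def diagRep (χ θ : G →* F) : G →* Module.End F (F × F) where
  toFun g := LinearMap.prodMap (χ g • (1 : Module.End F F)) (θ g • (1 : Module.End F F))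
  map_one' := by
    ext <;> simp
  map_mul' g h := by
    ext <;> simp [mul_comm]

theorem diagRep_apply (χ θ : G →* F) (g : G) :
    diagRep χ θ g = LinearMap.prodMap (χ g • (1 : Module.End F F)) (θ g • (1 : Module.End F F)) :=
  rfl

theorem charpoly_diagRep (χ θ : G →* F) (g : G) :
    (diagRep χ θ g).charpoly = X ^ 2 - C (χ g + θ g) * X + C (χ g * θ g) := by
  rw [diagRep_apply, LinearMap.charpoly_prodMap, charpoly_smul_one, charpoly_smul_one,
    Module.finrank_self, pow_one, pow_one, C_add, C_mul]
  ring

theorem diagRep_eq_one (χ θ : G →* F) {g : G} (h1 : χ g = 1) (h2 : θ g = 1) :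
    diagRep χ θ g = 1 := by
  rw [diagRep_apply, h1, h2]
  ext <;> simp

theorem finrank_prod_self : Module.finrank F (F × F) = 2 := by
  rw [Module.finrank_prod, Module.finrank_self]

end diag

section dim1

variable {F : Type*} [Field F] {U : Type*} [AddCommGroup U] [Module F U]
variable {G : Type*} [Group G]

/-- The character by which `G` acts on a line. -/
noncomputable def lineChar (h1 : Module.finrank F U = 1) (r : G →* Module.End F U) : G →* F where
  toFun g := (LinearEquiv.smul_id_of_finrank_eq_one h1).symm (r g)
  map_one' := by
    rw [LinearEquiv.symm_apply_eq]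
    simp
    rfl
  map_mul' g h := by
    rw [LinearEquiv.symm_apply_eq]
    have e1 := (LinearEquiv.smul_id_of_finrank_eq_one h1).apply_symm_apply (r g)
    have e2 := (LinearEquiv.smul_id_of_finrank_eq_one h1).apply_symm_apply (r h)
    simp only [LinearEquiv.smul_id_of_finrank_eq_one_apply] at e1 e2 ⊢
    rw [map_mul]
    conv_lhs => rw [← e1, ← e2]
    ext x
    simp [mul_smul, smul_comm ((LinearEquiv.smul_id_of_finrank_eq_one h1).symm (r h))]

theorem lineChar_spec (h1 : Module.finrank F U = 1) (r : G →* Module.End F U) (g : G) :
    r g = lineChar h1 r g • (1 : Module.End F U) := by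
  have e1 := (LinearEquiv.smul_id_of_finrank_eq_one h1).apply_symm_apply (r g)
  simp only [LinearEquiv.smul_id_of_finrank_eq_one_apply] at e1
  exact e1.symm

end dim1

section assembly

variable {F M : Type} [Field F] [AddCommGroup M] [Module F M]
variable {G : Type*} [Group G]

/-- The twist `d · χ⁻¹` of the inverse of a character. -/
noncomputable def twistInv (d χ : G →* F) : G →* F :=
  d * ((invMonoidWithZeroHom (G₀ := F)).toMonoidHom.comp χ)

theorem twistInv_apply (d χ : G →* F) (g : G) : twistInv d χ g = d g * (χ g)⁻¹ := rfl

theorem char_ne_zero (χ : G →* F) (g : G) : χ g ≠ 0 := by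
  intro h
  have : χ g * χ g⁻¹ = 1 := by rw [← map_mul, mul_inv_cancel, map_one]
  rw [h, zero_mul] at this
  exact zero_ne_one this

/-- **Abstract assembly.** A nonzero finite dimensional representation over an algebraically
closed field in which every group element satisfies a quadratic relation with multiplicative
constant term `d` gives rise to a two-dimensional representation `ρ` with
`charpoly (ρ g) = X² - α X + d g` for every `α` such that `g² = α g - d g` holds on `M`;
moreover `ρ g = 1` as soon as `g` acts trivially on `M` and `d g = 1`. -/
theorem exists_two_dim [IsAlgClosed F] [FiniteDimensional F M] [Nontrivial M]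
    (r : G →* Module.End F M) (d : G →* F) (a : G → F)
    (hrel : ∀ g, r g * r g = a g • r g - d g • 1) :
    ∃ (V : Type) (_ : AddCommGroup V) (_ : Module F V) (_ : Module.Finite F V)
      (ρ : G →* Module.End F V),
      Module.finrank F V = 2 ∧ (∀ g, r g = 1 → d g = 1 → ρ g = 1) ∧
      ∀ g α, r g * r g = α • r g - d g • 1 →
        LinearMap.charpoly (ρ g) = X ^ 2 - C α * X + C (d g) := by
  obtain ⟨U, hU0, hUs, hUmin⟩ := exists_minimal_stable r
  have hq : QuadRel r a d := ⟨fun g h => map_mul d g h, hrel⟩
  have hqU := hq.restrict U hUs
  have hirr := restrictRep_irreducible r U hUs hUmin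
  have : Nontrivial U := Submodule.nontrivial_iff_ne_bot.mpr hU0
  have hle := finrank_le_two hqU hirr
  have hpos : 0 < finrank F U := Module.finrank_pos
  rcases (show finrank F U = 1 ∨ finrank F U = 2 by omega) with h1 | h2
  · -- the line case
    have hχ := lineChar_spec h1 (restrictRep r U hUs)
    set χ := lineChar h1 (restrictRep r U hUs) with hχdef
    refine ⟨F × F, inferInstance, inferInstance, inferInstance, diagRep χ (twistInv d χ),
      finrank_prod_self,
      fun g hg hd => ?_, fun g α hα => ?_⟩
    · have e : χ g = 1 := by
        have h := hχ g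
        rw [restrictRep_eq_one r U hUs hg] at h
        have h' : (1 : F) • (1 : Module.End F U) = χ g • 1 := by rw [one_smul]; exact h
        exact (smul_one_injective h').symm
      exact diagRep_eq_one _ _ e (by rw [twistInv_apply, hd, e, inv_one, mul_one])
    · have hne := char_ne_zero χ g
      have hα' := restrictRep_rel r U hUs hα
      rw [hχ g] at hα'
      have e : χ g * χ g = α * χ g - d g := by
        rw [smul_mul_smul_comm, mul_one, smul_smul, ← sub_smul] at hα'
        exact smul_one_injective hα'
      have eθ : χ g + twistInv d χ g = α := by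
        rw [twistInv_apply]
        field_simp
        linear_combination e
      have eθ' : χ g * twistInv d χ g = d g := by
        rw [twistInv_apply]
        field_simp
      rw [charpoly_diagRep, eθ, eθ']
  · -- the plane case
    refine ⟨U, inferInstance, inferInstance, inferInstance, restrictRep r U hUs, h2,
      fun g hg _ => restrictRep_eq_one r U hUs hg, fun g α hα => ?_⟩
    exact charpoly_eq_of_quadRel hqU hirr h2 g α (restrictRep_rel r U hUs hα)

end assembly

end Fermat.Agent.S29.H872
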