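import Fermat.Agent.S29.H872.Quadratic

/-!
# Characteristic polynomials in the two-dimensional case of the dimension lemma
-/

set_option autoImplicit false

namespace Fermat.Agent.S29.H872

open Module Polynomial

variable {K : Type*} [Field K] {U : Type*} [AddCommGroup U] [Module K U]
variable {G : Type*} [Group G]

/-- `T` is not a scalar. -/
def NonScalar (T : Module.End K U) : Prop := ∀ c : K, T ≠ c • 1

theorem smul_one_injective [Nontrivial U] : Function.Injective fun c : K => c • (1 : Module.End K U) := by
  intro c c' h
  obtain ⟨u, hu⟩ := exists_ne (0 : U)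
  have := congrArg (fun f : Module.End K U => f u) h
  simp only [LinearMap.smul_apply, Module.End.one_apply] at this
  exact smul_left_injective K hu this

/-- Uniqueness of the quadratic relation of a non-scalar endomorphism. -/
theorem quad_unique {T : Module.End K U} [Nontrivial U] (hT : NonScalar T) {α β γ δ : K}
    (h1 : T * T = α • T - γ • 1) (h2 : T * T = β • T - δ • 1) : α = β ∧ γ = δ := by
  have h : (α - β) • T = (γ - δ) • (1 : Module.End K U) := by
    have := h1.symm.trans h2
    rw [sub_smul, sub_smul]
    rw [sub_eq_sub_iff_add_eq_add] at this ⊢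
    rw [this]
    abel
  have hαβ : α = β := by
    by_contra hne
    have hne' : α - β ≠ 0 := sub_ne_zero.2 hne
    apply hT ((α - β)⁻¹ * (γ - δ))
    rw [mul_smul, ← h, smul_smul, inv_mul_cancel₀ hne', one_smul]
  refine ⟨hαβ, ?_⟩
  rw [hαβ, sub_self, zero_smul] at h
  have := smul_one_injective (K := K) (U := U) (h.symm.trans (zero_smul K _).symm)
  exact sub_eq_zero.1 this

variable [FiniteDimensional K U]

theorem charpoly_smul_one (c : K) :
    (c • (1 : Module.End K U)).charpoly = (X - C c) ^ Module.finrank K U := by
  have h := LinearMap.charpoly_sub_smul (0 : Module.End K U) (-c)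
  rw [LinearMap.charpoly_zero] at h
  have e : (0 : Module.End K U) - (-c) • 1 = c • 1 := by simp
  rw [e] at h
  rw [h]
  simp [sub_eq_add_neg]

/-- Characteristic polynomial of a non-scalar endomorphism of a plane with a quadratic
relation. -/
theorem charpoly_of_nonScalar [Nontrivial U] (h2 : Module.finrank K U = 2)
    {T : Module.End K U} (hT : NonScalar T) {α δ : K} (hrel : T * T = α • T - δ • 1) :
    T.charpoly = X ^ 2 - C α * X + C δ := by
  have hmon := LinearMap.charpoly_monic T
  have hdeg : T.charpoly.natDegree = 2 := by rw [LinearMap.charpoly_natDegree, h2]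
  have hCH := LinearMap.aeval_self_charpoly T
  -- write the characteristic polynomial as `X² + c₁ X + c₀`
  have hP : T.charpoly = X ^ 2 + C (T.charpoly.coeff 1) * X + C (T.charpoly.coeff 0) := by
    ext n
    have hlead : T.charpoly.coeff 2 = 1 := by
      have := hmon.coeff_natDegree
      rwa [hdeg] at this
    rcases n with _ | _ | _ | n
    · simp
    · simp
    · simp [hlead]
    · have : T.charpoly.coeff (n + 3) = 0 :=
        coeff_eq_zero_of_natDegree_lt (by rw [hdeg]; omega)
      rw [this]
      simp
  rw [hP] at hCH
  simp only [map_add, map_mul, map_pow, aeval_X, aeval_C, Module.algebraMap_end_eq_smul_id] at hCH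
  have hCH' : T * T + (T.charpoly.coeff 1) • T + (T.charpoly.coeff 0) • (1 : Module.End K U)
      = 0 := by
    rw [← hCH, pow_two]
    congr 2
  have h3 : T * T = (-(T.charpoly.coeff 1)) • T - (T.charpoly.coeff 0) • (1 : Module.End K U) := by
    rw [neg_smul]
    have e1 := eq_neg_of_add_eq_zero_left hCH'
    have e2 := eq_sub_of_add_eq e1
    rw [e2]
    abel
  obtain ⟨e1, e0⟩ := quad_unique hT hrel h3
  rw [hP, ← e0, show T.charpoly.coeff 1 = -α by rw [e1, neg_neg]]
  simp [sub_eq_add_neg]

omit [FiniteDimensional K U] in
theorem exists_nonScalar [Nontrivial U] (h2 : Module.finrank K U = 2) (r : G →* Module.End K U)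
    (hirr : ∀ W : Submodule K U, (∀ g, W ≤ W.comap (r g)) → W = ⊥ ∨ W = ⊤) :
    ∃ h, NonScalar (r h) := by
  by_contra hcon
  simp only [NonScalar, not_exists, not_forall, not_not] at hcon
  obtain ⟨u, hu⟩ := exists_ne (0 : U)
  have hW := hirr (Submodule.span K {u}) (fun g w hw => by
    obtain ⟨c, hc⟩ := hcon g
    rw [Submodule.mem_comap, hc]
    exact Submodule.smul_mem _ _ hw)
  rcases hW with hW | hW
  · exact hu ((Submodule.span_singleton_eq_bot).1 hW)
  · have := finrank_span_singleton (K := K) hu
    rw [hW, finrank_top, h2] at this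
    omega

/-- **Characteristic polynomial lemma.**  In the two-dimensional irreducible case, every
quadratic relation `g² = α g - d(g)` (with `d` multiplicative) is the characteristic
polynomial. -/
theorem charpoly_eq_of_quadRel [IsAlgClosed K] [Nontrivial U] {r : G →* Module.End K U}
    {a d : G → K} (hq : QuadRel r a d)
    (hirr : ∀ W : Submodule K U, (∀ g, W ≤ W.comap (r g)) → W = ⊥ ∨ W = ⊤)
    (h2 : Module.finrank K U = 2) (g : G) (α : K) (hα : r g * r g = α • r g - d g • 1) :
    (r g).charpoly = X ^ 2 - C α * X + C (d g) := by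
  by_cases hg : NonScalar (r g)
  · exact charpoly_of_nonScalar h2 hg hα
  · simp only [NonScalar, not_forall, not_not] at hg
    obtain ⟨c, hc⟩ := hg
    obtain ⟨h, hh⟩ := exists_nonScalar h2 r hirr
    have hinv : r g⁻¹ * r g = 1 := by rw [← map_mul, inv_mul_cancel, map_one]
    have hc0 : c ≠ 0 := by
      rintro rfl
      rw [hc, zero_smul, mul_zero] at hinv
      exact zero_ne_one hinv
    -- `r (g * h) = c • r h` is not scalar
    have hgh : r (g * h) = c • r h := by rw [map_mul, hc, smul_mul_assoc, one_mul]
    have hghns : NonScalar (r (g * h)) := by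
      intro e he
      apply hh (c⁻¹ * e)
      rw [mul_smul, ← he, hgh, smul_smul, inv_mul_cancel₀ hc0, one_smul]
    have hrel1 := hq.rel (g * h)
    have hrel2 : r (g * h) * r (g * h) = (c * a h) • r (g * h) - (c ^ 2 * d h) • 1 := by
      rw [hgh, smul_mul_smul_comm, hq.rel h]
      module
    obtain ⟨-, hd⟩ := quad_unique hghns hrel1 hrel2
    rw [hq.d_mul] at hd
    -- `d h ≠ 0`
    have hdh : d h ≠ 0 := by
      intro h0
      have hadj := quad_adj (hq.rel h)
      rw [h0, zero_smul] at hadj
      have hinvh : r h⁻¹ * r h = 1 := by rw [← map_mul, inv_mul_cancel, map_one]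
      have : a h • (1 : Module.End K U) - r h = 0 := by
        have := congrArg (fun z => r h⁻¹ * z) hadj
        simpa only [← mul_assoc, hinvh, one_mul, mul_zero] using this
      exact hh (a h) (sub_eq_zero.1 this).symm
    have hdg : d g = c ^ 2 := mul_right_cancel₀ hdh hd
    -- `α = 2 c`
    have hα2 : α = 2 * c := by
      rw [hc, smul_mul_smul_comm, mul_one, hdg, smul_smul] at hα
      have h' : (c * c) • (1 : Module.End K U) = (α * c - c ^ 2) • 1 := by
        rw [hα, sub_smul]
      have := smul_one_injective (K := K) (U := U) h'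
      have h3 : c * (2 * c - α) = 0 := by linear_combination this
      rcases mul_eq_zero.1 h3 with h4 | h4
      · exact absurd h4 hc0
      · linear_combination -h4
    rw [hc, charpoly_smul_one, h2, hdg, hα2, show (2 * c : K) = c + c by ring]
    simp only [map_add, map_pow]
    ring

end Fermat.Agent.S29.H872
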