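import Fermat.Agent.S29.H872.Final
import Fermat.Agent.Lib.Cheb.FrobeniusDivision

/-!
# `WeakCheb` holds (from the landed Frobenius division theorem), and S29 from MOD alone
-/

set_option autoImplicit false

namespace Fermat.Agent.S29.H872

/-- The weak Chebotarev hypothesis of `Glue.lean` follows from the Frobenius division theorem
`Fermat.Agent.Lib.Cheb.frobeniusDivision`. -/
theorem weakCheb : WeakCheb := by
  intro s σ S
  have hint : ∀ x ∈ (s : Set (AlgebraicClosure ℚ)), IsIntegral ℚ x := fun x _ =>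
    (AlgebraicClosure.isAlgebraic ℚ).isIntegral.isIntegral x
  have hfd : FiniteDimensional ℚ (IntermediateField.adjoin ℚ (s : Set (AlgebraicClosure ℚ))) :=
    IntermediateField.finiteDimensional_adjoin hint
  obtain ⟨ℓ, A, τ, k, j, hℓ, hℓS, hA, hτ, -, -, hj⟩ :=
    Fermat.Agent.Lib.Cheb.frobeniusDivision _ hfd σ S
  exact ⟨ℓ, A, τ, j, hℓ, hℓS, hA, hτ, fun x hx =>
    hj x (IntermediateField.subset_adjoin ℚ _ hx)⟩

/-- **S29 from MOD.** The frozen conclusion of S29 follows from the existence of the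
Eichler–Shimura module `ModHyp g p ψ` over algebraically closed fields of characteristic `p`. -/
theorem result_of_mod
    {N : ℕ} {g : CuspForm (CongruenceSubgroup.Gamma0 N) 2}
    {p : ℕ} (hp : p.Prime) {k : Type} [Field k] [CharP k p]
    (φ : integralClosure ℤ ℂ →+* k)
    (hMod : N ≠ 0 → ∀ (F : Type) [Field F] [IsAlgClosed F] [CharP F p]
      (ψ : integralClosure ℤ ℂ →+* F), ModHyp g p ψ) :
    ∃ ρ : ResidualGaloisRep k, ρ.IsAttachedTo g φ ∧
      ∀ ℓ : ℕ, ℓ.Prime → ¬ ℓ ∣ N * p → ρ.IsUnramifiedAt ℓ :=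
  result_of_module hp φ weakCheb hMod

end Fermat.Agent.S29.H872
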