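import Mathlib

/-!
# Quadratic relations pass to powers

If `T * T = a • T - d • 1` in an algebra over an algebraically closed field, then every power
`T ^ j` satisfies a quadratic relation with constant term `d ^ j`.
-/

set_option autoImplicit false

namespace Fermat.Agent.S29.H872

open Polynomial

variable {F : Type*} [Field F] {B : Type*} [Ring B] [Algebra F B]

/-- A monic quadratic over an algebraically closed field splits. -/
theorem exists_roots_quadratic [IsAlgClosed F] (a d : F) :
    ∃ α β : F, α + β = a ∧ α * β = d := by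
  have hdeg : (X ^ 2 - C a * X + C d : F[X]).degree ≠ 0 := by
    have h : (X ^ 2 - C a * X + C d : F[X]).degree = 2 := by
      have e : (X ^ 2 - C a * X + C d : F[X]) = X ^ 2 + (C (-a) * X + C d) := by
        rw [C_neg]; ring
      rw [e, degree_add_eq_left_of_degree_lt]
      · exact degree_X_pow 2
      · rw [degree_X_pow]
        exact lt_of_le_of_lt (degree_linear_le) (by decide)
    rw [h]; decide
  obtain ⟨α, hα⟩ := IsAlgClosed.exists_root _ hdeg
  refine ⟨α, a - α, by ring, ?_⟩
  simp only [IsRoot.def, eval_add, eval_sub, eval_pow, eval_X, eval_mul, eval_C] at hα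
  linear_combination -hα

theorem aeval_quad (T : B) (s t : F) (Y : F[X]) :
    aeval T (Y * Y - C s * Y + C t) = aeval T Y * aeval T Y - s • aeval T Y + t • (1 : B) := by
  simp only [map_add, map_sub, map_mul, aeval_C, Algebra.smul_def, mul_one]

/-- If `(T - α)(T - β) = 0` then `(T ^ j - α ^ j)(T ^ j - β ^ j) = 0`. -/
theorem pow_rel_of_roots {T : B} {α β : F}
    (h : T * T = (α + β) • T - (α * β) • (1 : B)) (j : ℕ) :
    T ^ j * T ^ j = (α ^ j + β ^ j) • T ^ j - (α * β) ^ j • (1 : B) := by
  obtain ⟨P, hP⟩ : (X - C α : F[X]) ∣ X ^ j - C α ^ j := sub_dvd_pow_sub_pow _ _ _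
  obtain ⟨Q, hQ⟩ : (X - C β : F[X]) ∣ X ^ j - C β ^ j := sub_dvd_pow_sub_pow _ _ _
  have h0 : aeval T ((X - C α) * (X - C β) : F[X]) = 0 := by
    have e : ((X - C α) * (X - C β) : F[X]) = X * X - C (α + β) * X + C (α * β) := by
      rw [C_add, C_mul]; ring
    rw [e, aeval_quad, aeval_X, h]; abel
  have h1 : aeval T ((X ^ j - C α ^ j) * (X ^ j - C β ^ j) : F[X]) = 0 := by
    rw [hP, hQ, show (X - C α) * P * ((X - C β) * Q) = (X - C α) * (X - C β) * (P * Q) by ring,
      map_mul, h0, zero_mul]
  have e : ((X ^ j - C α ^ j) * (X ^ j - C β ^ j) : F[X])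
      = X ^ j * X ^ j - C (α ^ j + β ^ j) * X ^ j + C ((α * β) ^ j) := by
    rw [C_add, C_pow, C_pow, mul_pow, C_mul, C_pow, C_pow]; ring
  rw [e, aeval_quad, map_pow, aeval_X] at h1
  rw [← sub_eq_zero, ← h1]; abel

/-- **Quadratic relations pass to powers.** -/
theorem exists_pow_rel [IsAlgClosed F] {T : B} {a d : F}
    (h : T * T = a • T - d • (1 : B)) (j : ℕ) :
    ∃ a' : F, T ^ j * T ^ j = a' • T ^ j - d ^ j • (1 : B) := by
  obtain ⟨α, β, hab, hd⟩ := exists_roots_quadratic a d
  subst hab; subst hd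
  exact ⟨_, pow_rel_of_roots h j⟩

end Fermat.Agent.S29.H872
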