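import Fermat.Agent.S29.H872.Assembly
import Fermat.Agent.S29.H872.PowRel
import Fermat.Agent.S29.H872.Cyclo

/-!
# From a Galois module with Eichler–Shimura relations to a residual Galois representation

Input: an algebraically closed field `F` of characteristic `p`, a nonzero finite dimensional
`F[G_ℚ]`-module `M` of finite level, unramified outside a finite set `S ∋ p`, such that every
Frobenius element at a prime `ℓ ∉ S` satisfies `σ² - c(ℓ) σ + ℓ = 0` on `M`; plus the weak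
qualitative Chebotarev property `WeakCheb` (every element of `G_ℚ` agrees, on any finite subset
of `ℚ̄`, with a power of a Frobenius element at a prime outside any finite set).

Output: a `ResidualGaloisRep F`, unramified outside `S`, with
`charpoly (ρ Frob_ℓ) = X² - c(ℓ) X + ℓ` for all `ℓ ∉ S`.
-/

set_option autoImplicit false

namespace Fermat.Agent.S29.H872

open Polynomial ExtCitation

/-- **Weak qualitative Chebotarev** (hypothesis shape): on every finite subset `s` of `ℚ̄`, every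
`σ ∈ G_ℚ` agrees with a power of a Frobenius element at some prime outside `S`. -/
def WeakCheb : Prop :=
  ∀ (s : Finset (AlgebraicClosure ℚ)) (σ : AlgebraicClosure ℚ ≃ₐ[ℚ] AlgebraicClosure ℚ)
    (S : Finset ℕ),
    ∃ (q : ℕ) (A : ValuationSubring (AlgebraicClosure ℚ))
      (τ : AlgebraicClosure ℚ ≃ₐ[ℚ] AlgebraicClosure ℚ) (j : ℕ),
      q.Prime ∧ q ∉ S ∧ A.LiesOverPrime q ∧ A.IsFrobeniusAt τ q ∧ ∀ x ∈ s, (τ ^ j) x = σ x

/-- Agreement of two automorphisms on a finite dimensional subfield is detected on a finite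
set. -/
theorem exists_finset_level (L : IntermediateField ℚ (AlgebraicClosure ℚ))
    [FiniteDimensional ℚ L] :
    ∃ s : Finset (AlgebraicClosure ℚ),
      ∀ σ τ : AlgebraicClosure ℚ ≃ₐ[ℚ] AlgebraicClosure ℚ,
        (∀ x ∈ s, σ x = τ x) → ∀ x ∈ L, σ x = τ x := by
  classical
  let b := Module.finBasis ℚ L
  refine ⟨Finset.univ.image (fun i => ((b i : L) : AlgebraicClosure ℚ)), fun σ τ h x hx => ?_⟩
  have e : (σ.toAlgHom.comp L.val).toLinearMap = (τ.toAlgHom.comp L.val).toLinearMap := by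
    apply b.ext
    intro i
    exact h _ (Finset.mem_image_of_mem _ (Finset.mem_univ i))
  exact congrArg (fun f : L →ₗ[ℚ] AlgebraicClosure ℚ => f ⟨x, hx⟩) e

section cyclo

variable (p : ℕ) [Fact p.Prime] (F : Type*) [Field F] [CharP F p]

/-- The mod `p` cyclotomic character with values in a field of characteristic `p`. -/
noncomputable def cycloF : (AlgebraicClosure ℚ ≃ₐ[ℚ] AlgebraicClosure ℚ) →* F :=
  ((ZMod.castHom (dvd_refl p) F).toMonoidHom.comp (Units.coeHom (ZMod p))).comp (cycloChar p)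

theorem cycloF_apply (σ : AlgebraicClosure ℚ ≃ₐ[ℚ] AlgebraicClosure ℚ) :
    cycloF p F σ = ZMod.castHom (dvd_refl p) F ((cycloChar p σ : (ZMod p)ˣ) : ZMod p) := rfl

theorem cycloF_eq_one_of_fixes_roots (σ : AlgebraicClosure ℚ ≃ₐ[ℚ] AlgebraicClosure ℚ)
    (hσ : ∀ t : AlgebraicClosure ℚ, t ^ p = 1 → σ t = t) : cycloF p F σ = 1 := by
  rw [cycloF_apply, cycloChar_eq_one_of_fixes_roots p σ hσ, Units.val_one, map_one]

theorem cycloF_eq_one_of_mem_inertia {q : ℕ} (hq : q.Prime) (hqp : q ≠ p)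
    (A : ValuationSubring (AlgebraicClosure ℚ)) (hA : A.LiesOverPrime q)
    (σ : AlgebraicClosure ℚ ≃ₐ[ℚ] AlgebraicClosure ℚ) (hσ : σ ∈ A.inertiaSubgroupIn ℚ) :
    cycloF p F σ = 1 := by
  rw [cycloF_apply, Fermat.Agent.S55.Bridge.cycloChar_eq_one_of_mem_inertia p hq hqp A hA σ hσ,
    Units.val_one, map_one]

theorem cycloF_frobenius {ℓ : ℕ} (hℓ : ℓ.Prime) (hℓp : ℓ ≠ p)
    (A : ValuationSubring (AlgebraicClosure ℚ)) (hA : A.LiesOverPrime ℓ)
    (τ : AlgebraicClosure ℚ ≃ₐ[ℚ] AlgebraicClosure ℚ) (hτ : A.IsFrobeniusAt τ ℓ) :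
    cycloF p F τ = (ℓ : F) := by
  rw [cycloF_apply, cycloChar_frobenius p hℓ hℓp A hA τ hτ, map_natCast]

end cyclo

/-- **Glue.** See the module docstring. -/
theorem exists_residualGaloisRep_of_module (p : ℕ) [Fact p.Prime]
    {F : Type} [Field F] [IsAlgClosed F] [CharP F p]
    {M : Type} [AddCommGroup M] [Module F M] [FiniteDimensional F M] [Nontrivial M]
    (r : (AlgebraicClosure ℚ ≃ₐ[ℚ] AlgebraicClosure ℚ) →* Module.End F M)
    (hfin : GaloisFactorsThroughFiniteLevel r)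
    (S : Finset ℕ) (hpS : p ∈ S) (c : ℕ → F)
    (hunr : ∀ ℓ : ℕ, ℓ.Prime → ℓ ∉ S → ∀ A : ValuationSubring (AlgebraicClosure ℚ),
      A.LiesOverPrime ℓ → ∀ σ ∈ A.inertiaSubgroupIn ℚ, r σ = 1)
    (hES : ∀ ℓ : ℕ, ℓ.Prime → ℓ ∉ S → ∀ A : ValuationSubring (AlgebraicClosure ℚ),
      A.LiesOverPrime ℓ → ∀ σ : AlgebraicClosure ℚ ≃ₐ[ℚ] AlgebraicClosure ℚ,
        A.IsFrobeniusAt σ ℓ → r σ * r σ = c ℓ • r σ - (ℓ : F) • 1)
    (hCheb : WeakCheb) :
    ∃ ρ : ResidualGaloisRep F,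
      (∀ ℓ : ℕ, ℓ.Prime → ℓ ∉ S → ρ.IsUnramifiedAt ℓ) ∧
      ∀ ℓ : ℕ, ℓ.Prime → ℓ ∉ S → ∀ A : ValuationSubring (AlgebraicClosure ℚ),
        A.LiesOverPrime ℓ → ∀ σ : AlgebraicClosure ℚ ≃ₐ[ℚ] AlgebraicClosure ℚ,
          A.IsFrobeniusAt σ ℓ →
            LinearMap.charpoly (ρ.ρ σ) = X ^ 2 - C (c ℓ) * X + C ((ℓ : F)) := by
  classical
  have hp : p.Prime := Fact.out
  obtain ⟨L₀, hL₀fd, hL₀⟩ := hfin
  have := hL₀fd
  obtain ⟨s₀, hs₀⟩ := exists_finset_level L₀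
  let s₁ : Finset (AlgebraicClosure ℚ) := Polynomial.nthRootsFinset p (1 : AlgebraicClosure ℚ)
  have hs₁ : ∀ t : AlgebraicClosure ℚ, t ^ p = 1 → t ∈ s₁ := fun t ht =>
    (Polynomial.mem_nthRootsFinset hp.pos 1).2 ht
  -- the quadratic relation for every element of the Galois group
  have hall : ∀ σ : AlgebraicClosure ℚ ≃ₐ[ℚ] AlgebraicClosure ℚ,
      ∃ a' : F, r σ * r σ = a' • r σ - cycloF p F σ • 1 := by
    intro σ
    obtain ⟨q, A, τ, j, hq, hqS, hA, hτ, hagree⟩ := hCheb (s₀ ∪ s₁) σ S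
    have hqp : q ≠ p := fun h => hqS (h ▸ hpS)
    have h0 : ∀ x ∈ L₀, (τ ^ j) x = σ x :=
      hs₀ _ _ (fun x hx => hagree x (Finset.mem_union_left _ hx))
    have hfix : ∀ x : AlgebraicClosure ℚ, (τ ^ j) x = σ x → (σ⁻¹ * τ ^ j) x = x := by
      intro x hx
      rw [AlgEquiv.mul_apply, hx]
      exact σ.symm_apply_apply x
    have hr : r σ = r τ ^ j := by
      have h1 : r (σ⁻¹ * τ ^ j) = 1 := hL₀ _ (fun x hx => hfix x (h0 x hx))
      have h2 : r σ * r (σ⁻¹ * τ ^ j) = r τ ^ j := by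
        rw [← map_mul, mul_inv_cancel_left, map_pow]
      rw [h1, mul_one] at h2
      exact h2
    have hd : cycloF p F σ = cycloF p F τ ^ j := by
      have h1 : cycloF p F (σ⁻¹ * τ ^ j) = 1 :=
        cycloF_eq_one_of_fixes_roots p F _
          (fun t ht => hfix t (hagree t (Finset.mem_union_right _ (hs₁ t ht))))
      have h2 : cycloF p F σ * cycloF p F (σ⁻¹ * τ ^ j) = cycloF p F τ ^ j := by
        rw [← map_mul, mul_inv_cancel_left, map_pow]
      rw [h1, mul_one] at h2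
      exact h2
    have hτrel := hES q hq hqS A hA τ hτ
    have hdτ : cycloF p F τ = (q : F) := cycloF_frobenius p F hq hqp A hA τ hτ
    obtain ⟨a', ha'⟩ := exists_pow_rel hτrel j
    exact ⟨a', by rw [hr, hd, hdτ]; exact ha'⟩
  choose a ha using hall
  obtain ⟨V, iA, iM, iFin, ρ, hfr, htriv, hchar⟩ := exists_two_dim r (cycloF p F) a ha
  -- the level of `ρ`
  have hint : ∀ x ∈ (s₁ : Set (AlgebraicClosure ℚ)), IsIntegral ℚ x := fun x _ =>
    (AlgebraicClosure.isAlgebraic ℚ).isIntegral.isIntegral x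
  have : FiniteDimensional ℚ (IntermediateField.adjoin ℚ (s₁ : Set (AlgebraicClosure ℚ))) :=
    IntermediateField.finiteDimensional_adjoin hint
  have hlevel : GaloisFactorsThroughFiniteLevel ρ := by
    refine ⟨L₀ ⊔ IntermediateField.adjoin ℚ (s₁ : Set (AlgebraicClosure ℚ)), inferInstance,
      fun σ hσ => htriv σ (hL₀ σ fun x hx => hσ x ?_) (cycloF_eq_one_of_fixes_roots p F σ
        fun t ht => hσ t ?_)⟩
    · exact (le_sup_left : L₀ ≤ _) hx
    · exact (le_sup_right : IntermediateField.adjoin ℚ (s₁ : Set (AlgebraicClosure ℚ)) ≤ _)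
        (IntermediateField.subset_adjoin ℚ _ (hs₁ t ht))
  refine ⟨@ResidualGaloisRep.mk F _ V iA iM hfr ρ hlevel, ?_, ?_⟩
  · intro ℓ hℓ hℓS A hA σ hσ
    have hℓp : ℓ ≠ p := fun h => hℓS (h ▸ hpS)
    exact htriv σ (hunr ℓ hℓ hℓS A hA σ hσ) (cycloF_eq_one_of_mem_inertia p F hℓ hℓp A hA σ hσ)
  · intro ℓ hℓ hℓS A hA σ hσ
    have hℓp : ℓ ≠ p := fun h => hℓS (h ▸ hpS)
    have hdσ : cycloF p F σ = (ℓ : F) := cycloF_frobenius p F hℓ hℓp A hA σ hσ
    have h := hchar σ (c ℓ) (by rw [hdσ]; exact hES ℓ hℓ hℓS A hA σ hσ)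
    rw [hdσ] at h
    exact h

end Fermat.Agent.S29.H872
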