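import Fermat.Agent.S29.H872.Burnside
import Mathlib.LinearAlgebra.Charpoly.Basic
import Mathlib.LinearAlgebra.Charpoly.ToMatrix
import Mathlib.LinearAlgebra.Basis.VectorSpace
import Mathlib.LinearAlgebra.Dimension.Finite
import Mathlib.RingTheory.Adjoin.Basic
import Mathlib.Tactic.NoncommRing
import Mathlib.Tactic.Module
import Mathlib.Tactic.LinearCombination

/-!
# The dimension lemma

`K` algebraically closed, `U` a nonzero finite dimensional irreducible representation of a
group `G` such that every `g` satisfies a quadratic relation `g² = a(g) g - d(g)` with `d`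
multiplicative.  Then `dim U ≤ 2`, and if `dim U = 2` the characteristic polynomial of `g`
is `X² - α X + d(g)` for EVERY `α` with `g² = α g - d(g)`.
No restriction on the characteristic.
-/

set_option autoImplicit false

namespace Fermat.Agent.S29.H872

open Module Polynomial

section Algebra

variable {K : Type*} [Field K] {R : Type*} [Ring R] [Algebra K R]

theorem quad_adj {x : R} {a d : K} (hx : x * x = a • x - d • 1) :
    x * (a • 1 - x) = d • 1 := by
  rw [mul_sub, hx, mul_smul_comm, mul_one]
  abel

/-- The linearised quadratic relation. -/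
theorem pair_identity (x y u : R) (ax ay axy dx dy : K)
    (hx : x * x = ax • x - dx • 1) (hy : y * y = ay • y - dy • 1)
    (hxy : (x * y) * (x * y) = axy • (x * y) - (dx * dy) • 1) (hu : u * (x * y) = 1) :
    x * y + y * x = ay • x + ax • y + (axy - ax * ay) • (1 : R) := by
  have e1 := quad_adj hx
  have e2 := quad_adj hy
  have e3 := quad_adj hxy
  have e4 : (x * y) * ((ay • 1 - y) * (ax • 1 - x)) = (dx * dy) • (1 : R) := by
    calc (x * y) * ((ay • 1 - y) * (ax • 1 - x))
        = x * (y * (ay • 1 - y)) * (ax • 1 - x) := by simp only [mul_assoc]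
      _ = dy • (x * (ax • 1 - x)) := by
          rw [e2, mul_smul_comm, mul_one, smul_mul_assoc]
      _ = (dx * dy) • (1 : R) := by rw [e1, smul_smul, mul_comm]
  have e5 : (ay • 1 - y) * (ax • 1 - x) = axy • (1 : R) - x * y := by
    have h := congrArg (fun z => u * z) (e4.trans e3.symm)
    simp only [← mul_assoc, hu, one_mul] at h
    exact h
  have e6 : (ay • 1 - y) * (ax • 1 - x)
      = (ay * ax) • (1 : R) - ay • x - ax • y + y * x := by
    have t1 : (ay • (1 : R)) * (ax • (1 : R)) = (ay * ax) • (1 : R) := by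
      rw [smul_mul_assoc, one_mul, smul_smul]
    have t2 : (ay • (1 : R)) * x = ay • x := by rw [smul_mul_assoc, one_mul]
    have t3 : y * (ax • (1 : R)) = ax • y := by rw [mul_smul_comm, mul_one]
    rw [sub_mul, mul_sub, mul_sub, t1, t2, t3]
    abel
  have e7 : (ay * ax) • (1 : R) - ay • x - ax • y + y * x = axy • (1 : R) - x * y :=
    e6.symm.trans e5
  have e8 : x * y + y * x
      = (axy • (1 : R) - x * y) - ((ay * ax) • (1 : R) - ay • x - ax • y + y * x)
        + (x * y + y * x) := by rw [e7]; abel
  rw [e8]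
  module

end Algebra

variable {K : Type*} [Field K] {U : Type*} [AddCommGroup U] [Module K U]
variable {G : Type*} [Group G]

/-- Quadratic relations with multiplicative constant term. -/
structure QuadRel (r : G →* Module.End K U) (a d : G → K) : Prop where
  d_mul : ∀ g h, d (g * h) = d g * d h
  rel : ∀ g, r g * r g = a g • r g - d g • 1

namespace QuadRel

variable {r : G →* Module.End K U} {a d : G → K}

theorem pair (hq : QuadRel r a d) (g h : G) :
    r g * r h + r h * r g = a h • r g + a g • r h + (a (g * h) - a g * a h) • 1 := by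
  refine pair_identity (r g) (r h) (r (g * h)⁻¹) (a g) (a h) (a (g * h)) (d g) (d h)
    (hq.rel g) (hq.rel h) ?_ ?_
  · rw [← map_mul, hq.rel (g * h), hq.d_mul]
  · rw [← map_mul, ← map_mul, inv_mul_cancel, map_one]

/-- the inductive invariant -/
def Good (r : G →* Module.End K U) (a : G → K) (x : Module.End K U) (τ : K) : Prop :=
  (∃ s : K, x * x = τ • x + s • 1) ∧
    ∀ g, ∃ s : K, x * r g + r g * x = a g • x + τ • r g + s • 1

theorem good_zero : Good r a 0 0 :=
  ⟨⟨0, by simp⟩, fun g => ⟨0, by simp⟩⟩

theorem good_add_smul (hq : QuadRel r a d) {x : Module.End K U} {τ : K} (hx : Good r a x τ)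
    (c : K) (g : G) : Good r a (c • r g + x) (c * a g + τ) := by
  obtain ⟨⟨s, hs⟩, hx2⟩ := hx
  obtain ⟨sg, hsg⟩ := hx2 g
  refine ⟨⟨s + c * sg - c ^ 2 * d g, ?_⟩, fun h => ?_⟩
  · have e : (c • r g + x) * (c • r g + x)
        = (c ^ 2) • (r g * r g) + c • (x * r g + r g * x) + x * x := by
      simp only [add_mul, mul_add, smul_mul_assoc, mul_smul_comm, pow_two]
      module
    rw [e, hq.rel g, hsg, hs]
    module
  · obtain ⟨sh, hsh⟩ := hx2 h
    have hp := hq.pair g h
    refine ⟨sh + c * (a (g * h) - a g * a h), ?_⟩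
    have e : (c • r g + x) * r h + r h * (c • r g + x)
        = c • (r g * r h + r h * r g) + (x * r h + r h * x) := by
      simp only [add_mul, mul_add, smul_mul_assoc, mul_smul_comm]
      module
    rw [e, hp, hsh]
    module

theorem exists_good_of_mem_span (hq : QuadRel r a d) {x : Module.End K U}
    (hx : x ∈ Submodule.span K (Set.range r)) : ∃ τ, Good r a x τ := by
  rw [Finsupp.mem_span_range_iff_exists_finsupp] at hx
  obtain ⟨c, rfl⟩ := hx
  induction c using Finsupp.induction with
  | zero => exact ⟨0, by simpa using good_zero⟩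
  | single_add g b f hg hb ih =>
    obtain ⟨τ, hτ⟩ := ih
    refine ⟨b * a g + τ, ?_⟩
    rw [Finsupp.sum_add_index' (by simp) (by intro i b₁ b₂; rw [add_smul]),
      Finsupp.sum_single_index (by simp)]
    exact good_add_smul hq hτ b g

end QuadRel

theorem adjoin_range_toSubmodule (r : G →* Module.End K U) :
    Subalgebra.toSubmodule (Algebra.adjoin K (Set.range r)) = Submodule.span K (Set.range r) := by
  rw [Algebra.adjoin_eq_span]
  congr 1
  have : (Set.range r : Set (Module.End K U)) = (MonoidHom.mrange r : Set (Module.End K U)) :=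
    (MonoidHom.coe_mrange r).symm
  rw [this, Submonoid.closure_eq]

variable [IsAlgClosed K] [FiniteDimensional K U]

/-- Under irreducibility every endomorphism is a combination of the `r g`. -/
theorem span_range_eq_top [Nontrivial U] (r : G →* Module.End K U)
    (hirr : ∀ W : Submodule K U, (∀ g, W ≤ W.comap (r g)) → W = ⊥ ∨ W = ⊤) :
    Submodule.span K (Set.range r) = ⊤ := by
  have hA : Algebra.adjoin K (Set.range r) = ⊤ :=
    burnside _ (fun W hW => hirr W fun g => hW (r g) (Algebra.subset_adjoin ⟨g, rfl⟩))
  rw [← adjoin_range_toSubmodule, hA]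
  rfl

/-- Every endomorphism satisfies a monic quadratic equation. -/
theorem exists_quadratic [Nontrivial U] {r : G →* Module.End K U} {a d : G → K}
    (hq : QuadRel r a d)
    (hirr : ∀ W : Submodule K U, (∀ g, W ≤ W.comap (r g)) → W = ⊥ ∨ W = ⊤)
    (x : Module.End K U) : ∃ τ s : K, x * x = τ • x + s • 1 := by
  have hx : x ∈ Submodule.span K (Set.range r) := by
    rw [span_range_eq_top r hirr]; trivial
  obtain ⟨τ, ⟨s, hs⟩, _⟩ := hq.exists_good_of_mem_span hx
  exact ⟨τ, s, hs⟩

/-- **Dimension lemma.** -/
theorem finrank_le_two [Nontrivial U] {r : G →* Module.End K U} {a d : G → K}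
    (hq : QuadRel r a d)
    (hirr : ∀ W : Submodule K U, (∀ g, W ≤ W.comap (r g)) → W = ⊥ ∨ W = ⊤) :
    Module.finrank K U ≤ 2 := by
  by_contra hlt
  replace hlt := not_le.mp hlt
  let n := Module.finrank K U
  have hn : 3 ≤ n := hlt
  let b : Basis (Fin n) K U := Module.finBasis K U
  let i0 : Fin n := ⟨0, by omega⟩
  let i1 : Fin n := ⟨1, by omega⟩
  let i2 : Fin n := ⟨2, by omega⟩
  have h01 : i0 ≠ i1 := by simp [i0, i1, Fin.ext_iff]
  have h02 : i0 ≠ i2 := by simp [i0, i2, Fin.ext_iff]
  have h12 : i1 ≠ i2 := by simp [i1, i2, Fin.ext_iff]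
  let x : Module.End K U :=
    b.constr K (fun i => if i = i0 then b i1 else if i = i1 then b i2 else 0)
  have hx0 : x (b i0) = b i1 := by
    change b.constr K _ (b i0) = _
    rw [Basis.constr_basis, if_pos rfl]
  have hx1 : x (b i1) = b i2 := by
    change b.constr K _ (b i1) = _
    rw [Basis.constr_basis, if_neg h01.symm, if_pos rfl]
  obtain ⟨τ, s, hτ⟩ := exists_quadratic hq hirr x
  have h := congrArg (fun f : Module.End K U => f (b i0)) hτ
  simp only [Module.End.mul_apply, hx0, hx1, LinearMap.add_apply, LinearMap.smul_apply,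
    Module.End.one_apply] at h
  -- `b i2 = τ • b i1 + s • b i0`
  have h2 := congrArg (fun v => b.repr v i2) h
  simp only [map_add, map_smul, Basis.repr_self, Finsupp.coe_add, Finsupp.coe_smul,
    Pi.add_apply, Pi.smul_apply, Finsupp.single_eq_same, smul_eq_mul] at h2
  rw [Finsupp.single_eq_of_ne h12.symm, Finsupp.single_eq_of_ne h02.symm] at h2
  simp at h2

end Fermat.Agent.S29.H872
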